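import Fermat.Agent.DR.Conc.Multi
import Fermat.Agent.S36.Abs.Sep
import Fermat.Agent.S36.Val.Basic

/-!
# S33 / Val / Conc : the side conditions of `Val/Main.lean` for the concrete pair of reductions `DR.Conc.TT`.
-/

set_option autoImplicit false
set_option linter.unusedSectionVars false

namespace Fermat.Agent.S33.Val

open ModularCurve AlgebraicCurve Fermat.Agent.S24 Fermat.Agent.GAL Fermat.Agent.GAL.RED Fermat.Agent.DR.Conc
  Fermat.Agent.S36.Abs

variable (A : ValuationSubring Kbar) (M q : ℕ) [NeZero M] [NeZero q] (hq : q.Prime)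
  (hqM : ¬ q ∣ M) (hA : A.LiesOverPrime q)

theorem TT_hasScales : HasScales (TT A M q hq hqM hA) := by
  intro i w hw
  fin_cases i
  · obtain ⟨a, ha, h⟩ := R1_scale A M q hq hqM hA w hw
    exact ⟨a, ha, by rw [Algebra.smul_def]; exact h⟩
  · obtain ⟨a, ha, h⟩ := R2_scale A M q hq hqM hA w hw
    exact ⟨a, ha, by rw [Algebra.smul_def]; exact h⟩

theorem TT_rankOne : RankOne (TT A M q hq hqM hA) := by
  intro a b ha hb
  have h1 : a ∈ A.nonunits := by
    rw [Fermat.Agent.S36.Val.Basic_mem_nonunits_iff]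
    exact Or.inr hb
  obtain ⟨r, hr⟩ := exists_pow_mul_mem_nonunits A q hq hA a h1 b
  exact ⟨r, A.nonunits_subset hr⟩

theorem TT_small : ∃ c : Kbar, c ≠ 0 ∧ c⁻¹ ∉ (TT A M q hq hqM hA).A := by
  have hq0 : (q : Kbar) ≠ 0 := Nat.cast_ne_zero.2 hq.ne_zero
  refine ⟨(q : Kbar), hq0, ?_⟩
  have h := (Fermat.Agent.S36.Val.Basic_mem_nonunits_iff A (q : Kbar)).1 hA
  exact h.resolve_left hq0

end Fermat.Agent.S33.Val
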