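import Fermat.Agent.GAL.FF.RH.TameMain
import Fermat.Agent.DR.Abs.Ev
import Fermat.Agent.S19.ND.IsFFExt
import Fermat.Agent.S33.GalP.Kummer

/-!
# S33 / Val / Generic : the generic fibre of the Kummer cover (block VAL, generic half)

`K` algebraically closed of characteristic `0`, `F / K` a function field, `E / F` finite Galois, generated by `m`-th roots of
elements `u ∈ U ⊆ F` whose divisor is divisible by `m`.  Then

(primed versions / `genus_cover_kummerUnits`: an arbitrary generating set `Y ⊆ E` of `m`-th roots; no hypothesis on the characteristic)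
* `eq_one_of_smul_eq`            : the stabiliser in `Gal(E/F)` of a place of `E` is trivial;
* `ramificationIndex_eq_one`     : `E / F` is unramified at all the places;
* `genus_cover`                  : `g_E - 1 = |G| (g_F - 1)`  (Riemann-Hurwitz);
* `degree_poleDiv_algebraMap`    : `deg_E (x)_∞ = |G| deg_F (x)_∞` (any finite Galois extension);
* `poleDiv_algebraMap`           : `(x)_∞` on `E` is the pull back of `(x)_∞` on `F`.

These are the hypotheses `hdeg`, `hgenus` of `S33.Cover.SplitCover.exists_isPreNodal`.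
(`IsFF K E` is `S19.ND.isFF_of_finiteDimensional K F E`.)
-/

set_option autoImplicit false
set_option linter.unusedSectionVars false

noncomputable section

namespace Fermat.Agent.S33.Val

open AlgebraicCurve Fermat.Agent.Lib.RR Fermat.Agent.GAL.RED Fermat.Agent.DR.Abs Fermat.Agent.GAL.FF

variable {K F E : Type*} [Field K] [IsAlgClosed K] [Field F] [Field E] [Algebra K F] [Algebra K E]
  [Algebra F E] [IsScalarTower K F E] [IsFF K F] [IsFF K E]

/-- the value at a place is equivariant. -/
theorem ev_smul_place (σ : E ≃ₐ[K] E) (P : Place K E) {u : E} (hu : 0 ≤ P.ord u) :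
    ev (σ • P) (σ u) = ev P u := by
  apply ev_eq_of
  rcases ev_spec P hu with h | h
  · left
    conv_lhs => rw [h]
    exact σ.commutes _
  · right
    rw [← σ.commutes, ← map_sub, Place.ord_smul]
    exact h

/-- the conjugates of a place lie over the same place of `F`. -/
theorem restrict_smul [Algebra.IsIntegral F E] (g : E ≃ₐ[F] E) (w : Place K E) :
    ((g.restrictScalars K) • w).restrict F = w.restrict F := by
  apply Place.ext
  ext f
  rw [Place.mem_restrict_iff, Place.mem_restrict_iff]
  by_cases hf : f = 0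
  · subst hf; simp
  have hf' : algebraMap F E f ≠ 0 := by rwa [Ne, map_eq_zero]
  rw [Lib.PlaceEval.mem_iff, Lib.PlaceEval.mem_iff]
  have h := Place.ord_smul (g.restrictScalars K) w (algebraMap F E f)
  have h2 : (g.restrictScalars K) (algebraMap F E f) = algebraMap F E f := g.commutes f
  rw [h2] at h
  rw [h]

/-- the conjugates of a place have the same ramification index. -/
theorem ramificationIndex_smul [Algebra.IsIntegral F E] (g : E ≃ₐ[F] E) (w : Place K E) :
    ((g.restrictScalars K) • w).ramificationIndex F = w.ramificationIndex F := by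
  obtain ⟨π, hπ⟩ := IsDiscreteValuationRing.exists_irreducible (w.restrict F).toValuationSubring
  have hπord : (w.restrict F).ord (π : F) = 1 := (w.restrict F).ord_coe_irreducible hπ
  have h1 := w.ord_restrict (F := F) (π : F)
  have h2 := ((g.restrictScalars K) • w).ord_restrict (F := F) (π : F)
  rw [restrict_smul, hπord, mul_one] at h2
  rw [hπord, mul_one] at h1
  have h := Place.ord_smul (g.restrictScalars K) w (algebraMap F E (π : F))
  have h3 : (g.restrictScalars K) (algebraMap F E (π : F)) = algebraMap F E (π : F) := g.commutes _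
  rw [h3, h1, h2] at h
  exact_mod_cast h

variable {m : ℕ} {U : Set F}

/-- an automorphism fixing a place fixes the `m`-th roots of the functions whose divisor is divisible by `m`. -/
theorem map_root_eq [Algebra.IsIntegral F E] (hm : 0 < m) {u : F} (hu0 : u ≠ 0)
    (hu : ∀ P : Place K F, (m : ℤ) ∣ P.ord u) {y : E} (hy : y ^ m = algebraMap F E u)
    (w : Place K E) (g : E ≃ₐ[F] E) (hg : (g.restrictScalars K) • w = w) : g y = y := by
  have hu' : algebraMap F E u ≠ 0 := by rwa [Ne, map_eq_zero]
  have hy0 : y ≠ 0 := by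
    rintro rfl
    rw [zero_pow hm.ne'] at hy
    exact hu' hy.symm
  obtain ⟨π, hπ⟩ := IsDiscreteValuationRing.exists_irreducible (w.restrict F).toValuationSubring
  have hπord : (w.restrict F).ord (π : F) = 1 := (w.restrict F).ord_coe_irreducible hπ
  have hπ0 : (π : F) ≠ 0 := by
    intro h
    rw [h] at hπord
    simp at hπord
  obtain ⟨n, hn⟩ := hu (w.restrict F)
  set t : E := algebraMap F E (π : F) with ht
  have ht0 : t ≠ 0 := by rwa [ht, Ne, map_eq_zero]
  set y' : E := y * t ^ (-n) with hy'
  have htn : t ^ (-n) ≠ 0 := zpow_ne_zero _ ht0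
  have hy'0 : y' ≠ 0 := mul_ne_zero hy0 htn
  -- `y'` is a unit at `w`
  have hordy : (m : ℤ) * w.ord y = (w.ramificationIndex F : ℤ) * ((m : ℤ) * n) := by
    have h1 := w.ord_zpow y (m : ℤ)
    rw [zpow_natCast, hy, w.ord_restrict, hn] at h1
    rw [← h1]
  have hordt : w.ord t = (w.ramificationIndex F : ℤ) := by
    rw [ht, w.ord_restrict, hπord, mul_one]
  have hmZ : (m : ℤ) ≠ 0 := by exact_mod_cast hm.ne'
  have hordy2 : w.ord y = (w.ramificationIndex F : ℤ) * n := by
    apply mul_left_cancel₀ hmZ
    rw [hordy]; ring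
  have hord' : w.ord y' = 0 := by
    rw [hy', w.ord_mul hy0 htn, w.ord_zpow, hordy2, hordt]; ring
  -- `g y = ζ y`
  have h1 : (g y / y) ^ m = 1 := by
    rw [div_pow, ← map_pow, hy, g.commutes, div_self hu']
  obtain ⟨z, hz, hzy⟩ := GalP.exists_const_of_pow_eq_one (K := K) hm h1
  have h2 : g y = algebraMap K E z * y := by
    rw [hzy, div_mul_cancel₀ _ hy0]
  have hgt : g t = t := g.commutes _
  have h3 : g y' = algebraMap K E z * y' := by
    rw [hy', map_mul, map_zpow₀, hgt, h2, mul_assoc]
  have h4 := ev_smul_place (g.restrictScalars K) w hord'.ge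
  rw [hg] at h4
  have h5 : (g.restrictScalars K) y' = algebraMap K E z * y' := h3
  rw [h5, ev_mul w (ord_algebraMap w z).ge hord'.ge, ev_algebraMap] at h4
  have h6 : ev w y' ≠ 0 := (ev_ne_zero_iff w hord'.ge).2 ⟨hy'0, hord'⟩
  have h7 : z = 1 := by
    have : (z - 1) * ev w y' = 0 := by rw [sub_mul, h4, one_mul, sub_self]
    rcases mul_eq_zero.1 this with h | h
    · exact sub_eq_zero.1 h
    · exact absurd h h6
  rw [h2, h7, map_one, one_mul]

/-- **the stabiliser of a place is trivial** (generators `Y`). -/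
theorem eq_one_of_smul_eq' [Algebra.IsIntegral F E] (hm : 0 < m) {Y : Set E}
    (hY : ∀ y ∈ Y, ∃ u : F, u ≠ 0 ∧ (∀ P : Place K F, (m : ℤ) ∣ P.ord u) ∧ y ^ m = algebraMap F E u)
    (hgen : IntermediateField.adjoin F Y = ⊤)
    (w : Place K E) (g : E ≃ₐ[F] E) (hg : (g.restrictScalars K) • w = w) : g = 1 := by
  have key : ∀ z ∈ IntermediateField.adjoin F Y, g z = z := by
    intro z hz
    induction hz using IntermediateField.adjoin_induction with
    | mem y hy =>
      obtain ⟨u, hu0, hu, hy⟩ := hY y hy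
      exact map_root_eq hm hu0 hu hy w g hg
    | algebraMap f => exact g.commutes f
    | add x y _ _ hx hy => rw [map_add, hx, hy]
    | inv x _ hx => rw [map_inv₀, hx]
    | mul x y _ _ hx hy => rw [map_mul, hx, hy]
  ext z
  exact key z (hgen ▸ IntermediateField.mem_top)

variable [FiniteDimensional F E] [IsGalois F E]

theorem card_aut_eq_finrank' : Fintype.card (E ≃ₐ[F] E) = Module.finrank F E := by
  rw [← Nat.card_eq_fintype_card]
  exact IsGalois.card_aut_eq_finrank F E

/-- a finite Galois extension in which the stabilisers of the places are trivial is unramified. -/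
theorem ramificationIndex_eq_one_of_free
    (hfree : ∀ (w : Place K E) (g : E ≃ₐ[F] E), (g.restrictScalars K) • w = w → g = 1)
    (w : Place K E) : w.ramificationIndex F = 1 := by
  classical
  have hinj : Function.Injective fun g : E ≃ₐ[F] E => (g.restrictScalars K) • w := by
    intro g h hgh
    have h1 : ((h⁻¹ * g).restrictScalars K) • w = w := by
      have h2 : (h⁻¹ * g).restrictScalars K = (h.restrictScalars K)⁻¹ * g.restrictScalars K := rfl
      rw [h2, mul_smul]
      show (h.restrictScalars K)⁻¹ • ((g.restrictScalars K) • w) = w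
      rw [show (g.restrictScalars K) • w = (h.restrictScalars K) • w from hgh, inv_smul_smul]
    have h3 := hfree w _ h1
    rw [inv_mul_eq_one] at h3
    exact h3.symm
  set S : Finset (Place K E) := Finset.univ.image fun g : E ≃ₐ[F] E => (g.restrictScalars K) • w
    with hS
  have hsub : S ⊆ (w.restrict F).fiber E := by
    intro w' hw'
    rw [hS, Finset.mem_image] at hw'
    obtain ⟨g, -, rfl⟩ := hw'
    rw [Place.mem_fiber]
    exact restrict_smul g w
  have hsum := sum_ramificationIndex (F' := E) (w.restrict F)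
  have h1 : ∑ w' ∈ S, (w'.ramificationIndex F : ℤ) ≤
      ∑ w' ∈ (w.restrict F).fiber E, (w'.ramificationIndex F : ℤ) :=
    Finset.sum_le_sum_of_subset_of_nonneg hsub fun _ _ _ => Int.natCast_nonneg _
  have h2 : ∑ w' ∈ S, (w'.ramificationIndex F : ℤ) =
      Fintype.card (E ≃ₐ[F] E) * (w.ramificationIndex F : ℤ) := by
    rw [hS, Finset.sum_image (fun a _ b _ hab => hinj hab)]
    rw [Finset.sum_congr rfl fun g _ => by rw [ramificationIndex_smul g w]]
    rw [Finset.sum_const, Finset.card_univ, nsmul_eq_mul]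
  rw [h2, hsum, card_aut_eq_finrank'] at h1
  have h4 : 0 < Module.finrank F E := Module.finrank_pos
  have h5 := w.ramificationIndex_pos (F := F)
  have h6 : (w.ramificationIndex F : ℤ) ≤ 1 := by
    by_contra hcon
    rw [not_le] at hcon
    have h4' : (0 : ℤ) < Module.finrank F E := by exact_mod_cast h4
    nlinarith
  omega

/-- Riemann-Hurwitz for an unramified Galois cover. -/
theorem genus_of_unramified (hunr : ∀ w : Place K E, w.ramificationIndex F = 1) :
    (genusFF K E : ℤ) - 1 = Fintype.card (E ≃ₐ[F] E) * ((genusFF K F : ℤ) - 1) := by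
  have h := riemann_hurwitz_tame (k := K) (F := F) (F' := E) ∅ (fun w _ => hunr w)
    (fun w => by rw [hunr w]; simp)
  rw [Finset.sum_empty, add_zero] at h
  rw [card_aut_eq_finrank']
  linarith

/-- **the Kummer cover is unramified** (generators `Y`). -/
theorem ramificationIndex_eq_one' (hm : 0 < m) {Y : Set E}
    (hY : ∀ y ∈ Y, ∃ u : F, u ≠ 0 ∧ (∀ P : Place K F, (m : ℤ) ∣ P.ord u) ∧ y ^ m = algebraMap F E u)
    (hgen : IntermediateField.adjoin F Y = ⊤) (w : Place K E) : w.ramificationIndex F = 1 :=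
  ramificationIndex_eq_one_of_free (fun w g hg => eq_one_of_smul_eq' hm hY hgen w g hg) w

/-- **Riemann-Hurwitz for the Kummer cover** (generators `Y`). -/
theorem genus_cover' (hm : 0 < m) {Y : Set E}
    (hY : ∀ y ∈ Y, ∃ u : F, u ≠ 0 ∧ (∀ P : Place K F, (m : ℤ) ∣ P.ord u) ∧ y ^ m = algebraMap F E u)
    (hgen : IntermediateField.adjoin F Y = ⊤) :
    (genusFF K E : ℤ) - 1 = Fintype.card (E ≃ₐ[F] E) * ((genusFF K F : ℤ) - 1) :=
  genus_of_unramified (ramificationIndex_eq_one' hm hY hgen)

/-- **Riemann-Hurwitz for the Kummer cover** (generators `Y`, `kummerUnits` form). -/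
theorem genus_cover_kummerUnits (hm : 0 < m) {Y : Set E}
    (hY : ∀ y ∈ Y, ∃ u ∈ Fermat.Agent.GAL.kummerUnits K F m, y ^ m = algebraMap F E ((u : Fˣ) : F))
    (hgen : IntermediateField.adjoin F Y = ⊤) :
    (genusFF K E : ℤ) - 1 = Fintype.card (E ≃ₐ[F] E) * ((genusFF K F : ℤ) - 1) :=
  genus_cover' hm (fun y hy => by
    obtain ⟨u, hu, h⟩ := hY y hy
    exact ⟨u, u.ne_zero, hu, h⟩) hgen

omit [FiniteDimensional F E] [IsGalois F E] in
/-- **the stabiliser of a place is trivial.** -/
theorem eq_one_of_smul_eq [Algebra.IsIntegral F E] (hm : 0 < m)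
    (hU : ∀ u ∈ U, u ≠ 0 ∧ ∀ P : Place K F, (m : ℤ) ∣ P.ord u)
    (hgen : IntermediateField.adjoin F {y : E | ∃ u ∈ U, y ^ m = algebraMap F E u} = ⊤)
    (w : Place K E) (g : E ≃ₐ[F] E) (hg : (g.restrictScalars K) • w = w) : g = 1 :=
  eq_one_of_smul_eq' (Y := {y : E | ∃ u ∈ U, y ^ m = algebraMap F E u}) hm
    (by rintro _ ⟨u, hu, h⟩; exact ⟨u, (hU u hu).1, (hU u hu).2, h⟩) hgen w g hg

/-- **the Kummer cover is unramified.** -/
theorem ramificationIndex_eq_one (hm : 0 < m)
    (hU : ∀ u ∈ U, u ≠ 0 ∧ ∀ P : Place K F, (m : ℤ) ∣ P.ord u)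
    (hgen : IntermediateField.adjoin F {y : E | ∃ u ∈ U, y ^ m = algebraMap F E u} = ⊤)
    (w : Place K E) : w.ramificationIndex F = 1 :=
  ramificationIndex_eq_one' (Y := {y : E | ∃ u ∈ U, y ^ m = algebraMap F E u}) hm
    (by rintro _ ⟨u, hu, h⟩; exact ⟨u, (hU u hu).1, (hU u hu).2, h⟩) hgen w

/-- **Riemann-Hurwitz for the Kummer cover.** -/
theorem genus_cover (hm : 0 < m)
    (hU : ∀ u ∈ U, u ≠ 0 ∧ ∀ P : Place K F, (m : ℤ) ∣ P.ord u)
    (hgen : IntermediateField.adjoin F {y : E | ∃ u ∈ U, y ^ m = algebraMap F E u} = ⊤) :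
    (genusFF K E : ℤ) - 1 = Fintype.card (E ≃ₐ[F] E) * ((genusFF K F : ℤ) - 1) :=
  genus_of_unramified (ramificationIndex_eq_one hm hU hgen)

/-- the polar divisor of `x ∈ F` on `E` is the pull back of the polar divisor on `F`. -/
theorem poleDiv_algebraMap (x : F) :
    poleDiv (K := K) (algebraMap F E x) = Divisor.pullback E (poleDiv (K := K) x) := by
  ext w
  rw [Divisor.pullback_apply, poleDiv_apply, poleDiv_apply, w.ord_restrict]
  have h5 := w.ramificationIndex_pos (F := F)
  have h5' : (0 : ℤ) ≤ (w.ramificationIndex F : ℤ) := Int.natCast_nonneg _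
  rw [mul_max_of_nonneg _ _ h5', mul_zero, mul_neg]

/-- `deg_E (x)_∞ = |G| deg_F (x)_∞`. -/
theorem degree_poleDiv_algebraMap (x : F) :
    Divisor.degree (poleDiv (K := K) (algebraMap F E x)) =
      Fintype.card (E ≃ₐ[F] E) * Divisor.degree (poleDiv (K := K) x) := by
  rw [poleDiv_algebraMap, Divisor.degree_pullback, card_aut_eq_finrank']

end Fermat.Agent.S33.Val
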