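import Fermat.Agent.S33.Val.Multi

/-!
# S33 / Val / Perm : a (semilinear) automorphism of `E` which extends an automorphism of `F` acting trivially on the reduction `T.R i`
permutes the valuations `(i, g)` of a split family, compatibly with the reductions.  (Input of block GALP.)
-/

set_option autoImplicit false
set_option linter.unusedSectionVars false

namespace Fermat.Agent.S33.Val

open Fermat.Agent.GAL.RED Fermat.Agent.DR.Abs Fermat.Agent.S33.Cover

variable {K F E k : Type*} [Field K] [Field F] [Field E] [Algebra K F] [Algebra K E] [Algebra F E]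
  [IsScalarTower K F E] [Field k] {ι : Type*} {Fb : ι → Type*} [∀ i, Field (Fb i)] [∀ i, Algebra k (Fb i)]
  {T : MultiRed K F k Fb} {T' : MultiRed K E k (fun j : ι × (E ≃ₐ[F] E) => Fb j.1)}

/-- the reduction at `j` of `z ∈ O_j` is the reduction of any `y : F` with `y = z * (1 + t)`, `red t = 0`.
PROOF. `red_j (algebraMap y) = red_j z * red_j (1 + t) = red_j z` (`RedData.red_mul`, `red_add`, `red_one`); `h.cover.red_algebraMap`. -/
theorem IsSplitFamily.red_eq (h : IsSplitFamily T T') (j : ι × (E ≃ₐ[F] E)) {z t : E} {y : F}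
    (hz : z ∈ (T'.R j).O) (ht : t ∈ (T'.R j).O) (ht0 : (T'.R j).red t = 0)
    (hy : algebraMap F E y = z * (1 + t)) : (T'.R j).red z = (T.R j.1).red y := by
  obtain ⟨i, g⟩ := j
  have h1 : (T'.R (i, g)).red (1 + t) = 1 := by
    rw [(T'.R (i, g)).red_add (T'.R (i, g)).O.one_mem ht, ht0, add_zero]
    exact GRed.one _ _
  have h2 := h.cover.red_algebraMap i g y
  rw [hy, (T'.R (i, g)).red_mul hz ((T'.R (i, g)).O.add_mem _ _ (T'.R (i, g)).O.one_mem ht), h1,
    mul_one] at h2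
  exact h2

/-- **The permutation of the valuations induced by a semilinear automorphism.**
PROOF. `W' := (T'.R (i, g)).O.comap (σ.symm : E →+* E)` (`z ∈ W' ↔ σ.symm z ∈ O_{(i,g)}`).
`W' ∩ F = O_i`: `σ.symm (algebraMap f) = algebraMap (σF.symm f)` (from `hσ`), `h.cover.mem_iff`, `hO`.  `h.unique i W'` gives `g'`:
`σ z ∈ O_{(i,g')} ↔ z ∈ O_{(i,g)}` (`RingEquiv.symm_apply_apply`).
Reductions: if `z ∉ O_{(i,g)}` both sides are `0` (`RedData.red_of_not_mem`).  Otherwise `h.approx (i, g) z`: `y = z * (1 + t)`; apply `σ`: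
`algebraMap (σF y) = σ z * (1 + σ t)`; `σ t ∈ O_{(i,g')}` and `red (σ t) = 0`: otherwise `σ t` is a unit of `O_{(i,g')}`
(`RedData.red_ne_zero_iff`), so `(σ t)⁻¹ = σ t⁻¹ ∈ O_{(i,g')}`, `t⁻¹ ∈ O_{(i,g)}`, `red t ≠ 0`.  `red_eq` twice + `hred`. -/
theorem IsSplitFamily.exists_perm (h : IsSplitFamily T T') (σ : E ≃+* E) (σF : F ≃+* F)
    (hσ : ∀ f, σ (algebraMap F E f) = algebraMap F E (σF f)) (i : ι)
    (hO : ∀ f, σF f ∈ (T.R i).O ↔ f ∈ (T.R i).O) (hred : ∀ f, (T.R i).red (σF f) = (T.R i).red f)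
    (g : E ≃ₐ[F] E) :
    ∃ g' : E ≃ₐ[F] E, ∀ z : E, (σ z ∈ (T'.R (i, g')).O ↔ z ∈ (T'.R (i, g)).O) ∧
      (T'.R (i, g')).red (σ z) = (T'.R (i, g)).red z := by
  have hσs : ∀ f, σ.symm (algebraMap F E f) = algebraMap F E (σF.symm f) := by
    intro f
    apply σ.injective
    rw [RingEquiv.apply_symm_apply, hσ, RingEquiv.apply_symm_apply]
  have hW : ((T'.R (i, g)).O.comap (σ.symm : E →+* E)).comap (algebraMap F E) = (T.R i).O := by
    ext f
    rw [ValuationSubring.mem_comap, ValuationSubring.mem_comap]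
    show σ.symm (algebraMap F E f) ∈ _ ↔ _
    rw [hσs, h.cover.mem_iff, ← hO, RingEquiv.apply_symm_apply]
  obtain ⟨g', hg'⟩ := h.unique i _ hW
  have hmem : ∀ z : E, σ z ∈ (T'.R (i, g')).O ↔ z ∈ (T'.R (i, g)).O := by
    intro z
    rw [← hg', ValuationSubring.mem_comap]
    show σ.symm (σ z) ∈ _ ↔ _
    rw [RingEquiv.symm_apply_apply]
  refine ⟨g', fun z => ⟨hmem z, ?_⟩⟩
  by_cases hz : z ∈ (T'.R (i, g)).O
  · obtain ⟨y, t, htO, ht0, hy⟩ := h.approx (i, g) z
    have hy' : algebraMap F E (σF y) = σ z * (1 + σ t) := by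
      rw [← hσ, hy, map_mul, map_add, map_one]
    have htO' : σ t ∈ (T'.R (i, g')).O := (hmem t).2 htO
    have ht0' : (T'.R (i, g')).red (σ t) = 0 := by
      by_contra hne
      obtain ⟨h0, -, h2⟩ := (T'.R (i, g')).red_ne_zero_iff.1 hne
      rw [← map_inv₀, hmem] at h2
      have ht_ne : t ≠ 0 := by
        rintro rfl
        exact h0 (map_zero σ)
      exact ((T'.R (i, g)).red_ne_zero_iff.2 ⟨ht_ne, htO, h2⟩) ht0
    rw [h.red_eq (i, g') ((hmem z).2 hz) htO' ht0' hy', h.red_eq (i, g) hz htO ht0 hy]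
    exact hred y
  · rw [(T'.R (i, g)).red_of_not_mem hz, (T'.R (i, g')).red_of_not_mem (fun hh => hz ((hmem z).1 hh))]

end Fermat.Agent.S33.Val
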