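import Fermat.Agent.S33.Val.Multi

/-!
# S33 / Val / Sep : independence of the valuations of a split family.
-/

set_option autoImplicit false
set_option linter.unusedSectionVars false

namespace Fermat.Agent.S33.Val

open Fermat.Agent.GAL.RED Fermat.Agent.DR.Abs Fermat.Agent.S33.Cover Fermat.Agent.S36.Abs

variable {K F E k : Type*} [Field K] [Field F] [Field E] [Algebra K F] [Algebra K E] [Algebra F E]
  [IsScalarTower K F E] [Field k] {ι : Type*} {Fb : ι → Type*} [∀ i, Field (Fb i)] [∀ i, Algebra k (Fb i)]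
  {T : MultiRed K F k Fb} {T' : MultiRed K E k (fun j : ι × (E ≃ₐ[F] E) => Fb j.1)}

/-- two different valuations of `T` are incomparable.
PROOF. `hA`: `c₀ ≠ 0`, `c₀⁻¹ ∉ T.A`, so `c₀ ∈ T.A` (`ValuationSubring.mem_or_inv_mem`) and `T.redA c₀ = 0`
(`(T.R j).redA_ne_zero_iff`-like lemma / `GRed.ne_zero_iff`, `T.redA_eq`, `T.A_eq`).  `hS (fun _ => 1) (fun l => if l = j then c₀ else 1)` (classical)
gives `h`: `1 • h ∈ O_i`; `c₀ • h ∈ O_j` with reduction `1`.  If `h ∈ O_j` then `red_j (c₀ • h) = redA c₀ • red_j h = 0` (`RedData.red_smul`): absurd. -/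
theorem Sep_incomp_base (hS : T.Sep) (hA : ∃ c : K, c ≠ 0 ∧ c⁻¹ ∉ T.A) {i j : ι} (hij : i ≠ j) :
    ∃ t ∈ (T.R i).O, t ∉ (T.R j).O := by
  classical
  obtain ⟨c₀, hc0, hc1⟩ := hA
  have hcA : c₀ ∈ (T.R j).A := by
    rw [T.A_eq j]
    exact (T.A.mem_or_inv_mem c₀).resolve_right hc1
  have hred : (T.R j).redA c₀ = 0 := by
    by_contra hne
    have := ((T.R j).redA_ne_zero_iff.1 hne).2.2
    rw [T.A_eq j] at this
    exact hc1 this
  obtain ⟨h, hh⟩ := hS (fun _ => 1) (fun l => if l = j then c₀ else 1) (by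
    intro l
    by_cases hl : l = j
    · simp [hl, hc0]
    · simp [hl])
  refine ⟨h, ?_, ?_⟩
  · have := (hh i).1
    simpa [hij] using this
  · intro hj
    have h2 := (hh j).2
    simp only [if_true] at h2
    rw [(T.R j).red_smul hcA hj, hred, zero_smul] at h2
    exact zero_ne_one h2

/-- PROOF. `j = (i, g)`, `j' = (i', g')`.  If `i ≠ i'`: `t` from `Sep_incomp_base`, `algebraMap F E t`, `h.cover.mem_iff`.
If `i = i'` (subst) then `g ≠ g'`, so `¬ O_{(i,g)} ≤ O_{(i,g')}` by `h.free`; `SetLike.not_le_iff_exists`. -/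
theorem IsSplitFamily.incomp (h : IsSplitFamily T T') (hS : T.Sep) (hA : ∃ c : K, c ≠ 0 ∧ c⁻¹ ∉ T.A)
    (j j' : ι × (E ≃ₐ[F] E)) (hj : j ≠ j') : ∃ t ∈ (T'.R j).O, t ∉ (T'.R j').O := by
  obtain ⟨i, g⟩ := j
  obtain ⟨i', g'⟩ := j'
  by_cases hi : i = i'
  · subst hi
    have hg : g ≠ g' := fun e => hj (by rw [e])
    have := fun hle => hg (h.free i g g' hle)
    exact SetLike.not_le_iff_exists.1 this
  · obtain ⟨t, ht, ht'⟩ := Sep_incomp_base hS hA hi
    exact ⟨algebraMap F E t, (h.cover.mem_iff i g t).2 ht, fun hh => ht' ((h.cover.mem_iff i' g' t).1 hh)⟩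

/-- PROOF. `w ≠ 0`; `h.approx j w`: `algebraMap y = w * (1 + t)`, `red_j t = 0`, so `red_j (1 + t) = 1` (`RedData.red_add`, `red_one`), `1 + t ≠ 0`, `y ≠ 0`.
`hsc j.1 y`: `a ≠ 0` with `red_{j.1} (a • y) ≠ 0`, i.e. `red_j (algebraMap (a • y)) ≠ 0` (`h.cover.red_algebraMap`; write `j = (j.1, j.2)`).
`a • w = algebraMap (a • y) * (1 + t)⁻¹` (`algebraMap_smul`/`Algebra.smul_def`, `IsScalarTower.algebraMap_apply`); `RedData.red_mul` (both factors are in
`O_j`: `mem_of_red_ne_zero`, `red_inv`), so the reduction is `red(...) * 1⁻¹ ≠ 0`. -/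
theorem IsSplitFamily.hasScales (h : IsSplitFamily T T') (hsc : HasScales T) : HasScales T' := by
  rintro ⟨i, g⟩ w hw
  obtain ⟨y, t, htO, ht0, hy⟩ := h.approx (i, g) w
  have h1 : (T'.R (i, g)).red (1 + t) = 1 := by
    rw [(T'.R (i, g)).red_add (T'.R (i, g)).O.one_mem htO, ht0, add_zero]
    exact GRed.one _ _
  have h1ne : (T'.R (i, g)).red (1 + t) ≠ 0 := by rw [h1]; exact one_ne_zero
  have h1t : (1 + t) ≠ 0 := (T'.R (i, g)).ne_zero_of_red_ne_zero h1ne
  have hy0 : y ≠ 0 := by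
    rintro rfl
    rw [map_zero] at hy
    exact mul_ne_zero hw h1t hy.symm
  obtain ⟨a, ha, hay⟩ := hsc i y hy0
  refine ⟨a, ha, ?_⟩
  have e1 : a • w = algebraMap F E (a • y) * (1 + t)⁻¹ := by
    rw [Algebra.smul_def, Algebra.smul_def, map_mul, hy, ← IsScalarTower.algebraMap_apply]
    field_simp
  have h2 : (T'.R (i, g)).red (algebraMap F E (a • y)) ≠ 0 := by
    rw [h.cover.red_algebraMap]; exact hay
  rw [e1]
  apply (T'.R (i, g)).red_mul_ne_zero h2
  rw [(T'.R (i, g)).red_inv, h1]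
  simp

theorem IsSplitFamily.rankOne (h : IsSplitFamily T T') (hr : RankOne T) : RankOne T' := by
  intro a b ha hb
  rw [h.A_eq] at ha hb ⊢
  exact hr a b ha hb

/-- **Independence of the valuations of the split family.** -/
theorem IsSplitFamily.sep [FiniteDimensional F E] [Fintype ι] [Infinite k] (h : IsSplitFamily T T') (hS : T.Sep)
    (hsc : HasScales T) (hr : RankOne T) (hA : ∃ c : K, c ≠ 0 ∧ c⁻¹ ∉ T.A) : T'.Sep :=
  sep_of_incomparable T' (h.incomp hS hA) (h.hasScales hsc) (h.rankOne hr)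

end Fermat.Agent.S33.Val
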