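import Fermat.Agent.S33.Val.Kummer.Deep
import Fermat.Agent.S33.Val.Sep
import Fermat.Agent.S33.Val.Perm

/-!
# S33 / Val / Main : THE MAIN THEOREM OF BLOCK VAL (valuation half).

`E / F` finite Galois, generated by a set `Y` of elements `y` such that, for every valuation `i` of `T` and every constant `c ≠ 0`, some `F`-multiple
`y v` satisfies `(y v) ^ m ∈ 1 + c O_i` ("`y ^ m` is deep at all the valuations of `T`").  Then there is a family of reductions `T'` of `E`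
indexed by `ι × Gal(E/F)`, with `IsSplitFamily T T'` (in particular `Cover.SplitCover T T'`) and `T'.Sep`.
-/

set_option autoImplicit false
set_option linter.unusedSectionVars false

namespace Fermat.Agent.S33.Val

open Fermat.Agent.GAL.RED Fermat.Agent.DR.Abs Fermat.Agent.S33.Cover Fermat.Agent.S36.Abs

variable {K F E k : Type*} [Field K] [Field F] [Field E] [Algebra K F] [Algebra K E] [Algebra F E]
  [IsScalarTower K F E] [Field k] {ι : Type*} {Fb : ι → Type*} [∀ i, Field (Fb i)] [∀ i, Algebra k (Fb i)]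

theorem Main_cof {T : MultiRed K F k Fb} (hsc : HasScales T) (i : ι) (f : F) :
    ∃ c : K, c ≠ 0 ∧ c • f ∈ (T.R i).O := by
  rcases eq_or_ne f 0 with rfl | hf
  · exact ⟨1, one_ne_zero, by rw [smul_zero]; exact (T.R i).O.zero_mem⟩
  · obtain ⟨a, ha, h⟩ := hsc i f hf
    exact ⟨a, ha, (T.R i).mem_of_red_ne_zero h⟩

theorem Main_small {T : MultiRed K F k Fb} (hA : ∃ c : K, c ≠ 0 ∧ c⁻¹ ∉ T.A) (i : ι) :
    ∃ c : K, c ≠ 0 ∧ algebraMap K F c ∈ (T.R i).O.nonunits := by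
  obtain ⟨c, hc, h⟩ := hA
  refine ⟨c, hc, ?_⟩
  rw [Fermat.Agent.S36.Val.Basic_mem_nonunits_iff]
  right
  rw [← map_inv₀, (T.R i).algebraMap_mem_iff, T.A_eq i]
  exact h

/-- **Main theorem of block VAL.** -/
theorem exists_splitFamily_of_deep [IsAlgClosed K] [FiniteDimensional F E] [IsGalois F E] {m : ℕ}
    (hm : (m : K) ≠ 0) (T : MultiRed K F k Fb) (hsc : HasScales T) (hA : ∃ c : K, c ≠ 0 ∧ c⁻¹ ∉ T.A)
    {Y : Set E} (hgen : IntermediateField.adjoin F Y = ⊤)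
    (hY : ∀ y ∈ Y, ∀ (i : ι) (c : K), c ≠ 0 → ∃ v : F, v ≠ 0 ∧ ∃ h ∈ (T.R i).O,
      (y * algebraMap F E v) ^ m = algebraMap F E (1 + c • h)) :
    ∃ T' : MultiRed K E k (fun j : ι × (E ≃ₐ[F] E) => Fb j.1), IsSplitFamily T T' :=
  exists_splitFamily T fun i W hW =>
    isSplit_of_deep hm (T.R i).O W hW (Main_cof hsc i) (Main_small hA i) hgen (fun y hy => hY y hy i)

/-- The same with all the by-products needed by COVER. -/
theorem exists_splitCover_of_deep [IsAlgClosed K] [FiniteDimensional F E] [IsGalois F E] [Fintype ι] [Infinite k]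
    {m : ℕ} (hm : (m : K) ≠ 0) (T : MultiRed K F k Fb) (hS : T.Sep) (hsc : HasScales T) (hr : RankOne T)
    (hA : ∃ c : K, c ≠ 0 ∧ c⁻¹ ∉ T.A)
    {Y : Set E} (hgen : IntermediateField.adjoin F Y = ⊤)
    (hY : ∀ y ∈ Y, ∀ (i : ι) (c : K), c ≠ 0 → ∃ v : F, v ≠ 0 ∧ ∃ h ∈ (T.R i).O,
      (y * algebraMap F E v) ^ m = algebraMap F E (1 + c • h)) :
    ∃ T' : MultiRed K E k (fun j : ι × (E ≃ₐ[F] E) => Fb j.1),
      IsSplitFamily T T' ∧ SplitCover T T' ∧ T'.Sep := by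
  obtain ⟨T', h⟩ := exists_splitFamily_of_deep hm T hsc hA hgen hY
  exact ⟨T', h, h.cover, h.sep hS hsc hr hA⟩

end Fermat.Agent.S33.Val
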