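import Fermat.Agent.S33.Val.RedExt
import Fermat.Agent.S33.Cover.Defs
import Fermat.Agent.S36.Abs.Sep

/-!
# S33 / Val / Multi : the family of reductions of `E` indexed by `ι × Gal(E/F)` attached to split valuation subrings `W i`.

* `IsSplitFamily T T'` : THE OUTPUT CONTRACT OF BLOCK VAL (valuation part): `Cover.SplitCover T T'` + approximation by elements of `F`
  + uniqueness + freeness.
* `splitMulti T W hW hs` : the construction; `splitMulti_isSplitFamily`.
* `exists_splitFamily`.
(The consequences `IsSplitFamily.sep`, `IsSplitFamily.exists_perm` are in `Val/Sep.lean`, `Val/Perm.lean`.)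
-/

set_option autoImplicit false
set_option linter.unusedSectionVars false

noncomputable section

namespace Fermat.Agent.S33.Val

open Fermat.Agent.GAL.RED Fermat.Agent.DR.Abs Fermat.Agent.S33.Cover

variable {K F E k : Type*} [Field K] [Field F] [Field E] [Algebra K F] [Algebra K E] [Algebra F E]
  [IsScalarTower K F E] [Field k] {ι : Type*} {Fb : ι → Type*} [∀ i, Field (Fb i)] [∀ i, Algebra k (Fb i)]

/-- **Output contract of block VAL.** -/
structure IsSplitFamily (T : MultiRed K F k Fb)
    (T' : MultiRed K E k (fun j : ι × (E ≃ₐ[F] E) => Fb j.1)) : Prop where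
  /-- helper77's contract -/
  cover : SplitCover T T'
  A_eq : T'.A = T.A
  /-- every `z : E` is, at each valuation, an element of `F` times a unit `≡ 1` -/
  approx : ∀ (j : ι × (E ≃ₐ[F] E)) (z : E), ∃ y : F, ∃ t : E, t ∈ (T'.R j).O ∧ (T'.R j).red t = 0 ∧
    algebraMap F E y = z * (1 + t)
  /-- the valuation subrings of `E` above `(T.R i).O` are the `(T'.R (i, g)).O` -/
  unique : ∀ (i : ι) (W' : ValuationSubring E), W'.comap (algebraMap F E) = (T.R i).O →
    ∃ g : E ≃ₐ[F] E, W' = (T'.R (i, g)).O
  /-- they are pairwise incomparable -/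
  free : ∀ (i : ι) (g h : E ≃ₐ[F] E), (T'.R (i, g)).O ≤ (T'.R (i, h)).O → g = h

variable [FiniteDimensional F E] [IsGalois F E]

variable (T : MultiRed K F k Fb) (W : ι → ValuationSubring E)
  (hW : ∀ i, (W i).comap (algebraMap F E) = (T.R i).O) (hs : ∀ i, IsSplit K F (W i))

/-- The family of reductions of `E`. -/
def splitMulti : MultiRed K E k (fun j : ι × (E ≃ₐ[F] E) => Fb j.1) where
  R := fun j => cjRed (extRed (T.R j.1) (W j.1) (hW j.1) (hs j.1)) j.2
  A := T.A
  redA := T.redA
  A_eq := fun j => T.A_eq j.1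
  redA_eq := fun j a => T.redA_eq j.1 a
  redA_surj := T.redA_surj

theorem splitMulti_mem (i : ι) (g : E ≃ₐ[F] E) (z : E) :
    z ∈ ((splitMulti T W hW hs).R (i, g)).O ↔ g.symm z ∈ W i := Iff.rfl

theorem splitMulti_O (i : ι) (g : E ≃ₐ[F] E) : ((splitMulti T W hW hs).R (i, g)).O = cj (W i) g := rfl

theorem splitMulti_red (i : ι) (g : E ≃ₐ[F] E) (z : E) :
    ((splitMulti T W hW hs).R (i, g)).red z = (extRed (T.R i) (W i) (hW i) (hs i)).red (g.symm z) :=
  cjRed_red _ g z

theorem splitMulti_cover : SplitCover T (splitMulti T W hW hs) where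
  mem_iff := by
    intro i g y
    rw [splitMulti_mem, AlgEquiv.commutes, ← hW i]
    rfl
  red_algebraMap := by
    intro i g y
    rw [splitMulti_red, AlgEquiv.commutes, extRed_red_algebraMap]
  map_mem_iff := by
    intro i g h y
    rw [splitMulti_mem, splitMulti_mem]
    have : (h * g).symm (h y) = g.symm y := by
      apply (h * g).injective
      rw [AlgEquiv.apply_symm_apply, AlgEquiv.mul_apply, AlgEquiv.apply_symm_apply]
    rw [this]
  red_map := by
    intro i g h y
    rw [splitMulti_red, splitMulti_red]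
    have : (h * g).symm (h y) = g.symm y := by
      apply (h * g).injective
      rw [AlgEquiv.apply_symm_apply, AlgEquiv.mul_apply, AlgEquiv.apply_symm_apply]
    rw [this]

/-- PROOF.
* `approx (i, g) z` : `(hs i).exists_approx (g.symm z)` gives `y`, `t₀ ∈ (W i).nonunits`; `t := g t₀`.  `g.symm t = t₀ ∈ W i`; its reduction is `0`
  (`splitMulti_red`, `RedData.red_eq_zero_iff`, `ValuationSubring.valuation_lt_one_iff`/`mem_nonunits_iff`); apply `g` to the identity
  (`AlgEquiv.commutes`, `map_mul`, `AlgEquiv.apply_symm_apply`).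
* `unique` : `(hs i).unique W' (h.trans (hW i).symm)`, `splitMulti_O`.
* `free` : if `g ≠ h` then `g₀ := h.symm * g ≠ 1`... precisely: `(hs i).exists_not_mem (h⁻¹ * g)` gives `t ∈ W i` with `(h⁻¹ * g) t ∉ W i`; then
  `g t ∈ cj (W i) g` and `g t ∉ cj (W i) h` (`mem_cj`; `h.symm (g t) = (h⁻¹ * g) t` is `rfl`/`AlgEquiv.mul_apply`, `AlgEquiv.aut_inv`). -/
theorem splitMulti_isSplitFamily : IsSplitFamily T (splitMulti T W hW hs) where
  cover := splitMulti_cover T W hW hs
  A_eq := rfl
  approx := by
    rintro ⟨i, g⟩ z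
    obtain ⟨y, t₀, ht₀, hy⟩ := (hs i).exists_approx (g.symm z)
    have hmem : t₀ ∈ W i := by
      rw [ValuationSubring.mem_nonunits_iff] at ht₀
      exact ((W i).valuation_le_one_iff t₀).1 ht₀.le
    refine ⟨y, g t₀, ?_, ?_, ?_⟩
    · rw [splitMulti_mem, AlgEquiv.symm_apply_apply]
      exact hmem
    · rw [splitMulti_red, AlgEquiv.symm_apply_apply,
        (extRed (T.R i) (W i) (hW i) (hs i)).red_eq_zero_iff hmem]
      exact (ValuationSubring.mem_nonunits_iff (W i)).1 ht₀
    · have h1 := congrArg g hy
      rwa [AlgEquiv.commutes, map_mul, AlgEquiv.apply_symm_apply, map_add, map_one] at h1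
  unique := by
    intro i W' h
    exact (hs i).unique W' (h.trans (hW i).symm)
  free := by
    intro i g h hle
    by_contra hne
    have hne' : h⁻¹ * g ≠ 1 := by
      intro h1
      apply hne
      have := congrArg (fun x => h * x) h1
      simpa using this
    obtain ⟨t, ht, hnt⟩ := (hs i).exists_not_mem (h⁻¹ * g) hne'
    apply hnt
    have h1 : g t ∈ ((splitMulti T W hW hs).R (i, g)).O := by
      rw [splitMulti_mem, AlgEquiv.symm_apply_apply]
      exact ht
    have h2 := hle h1
    rw [splitMulti_mem] at h2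
    exact h2

/-- **Existence of the split family**, if all the extensions of the valuation subrings are split. -/
theorem exists_splitFamily
    (hsplit : ∀ (i : ι) (W : ValuationSubring E), W.comap (algebraMap F E) = (T.R i).O → IsSplit K F W) :
    ∃ T' : MultiRed K E k (fun j : ι × (E ≃ₐ[F] E) => Fb j.1), IsSplitFamily T T' := by
  have h : ∀ i, ∃ W : ValuationSubring E, W.comap (algebraMap F E) = (T.R i).O :=
    fun i => Fermat.Agent.S36.Val.exists_extension (algebraMap F E) (T.R i).O
  choose W hW using h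
  exact ⟨splitMulti T W hW (fun i => hsplit i (W i) (hW i)), splitMulti_isSplitFamily T W hW _⟩

end Fermat.Agent.S33.Val
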