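import Fermat.Agent.S33.Val.Split.Eq
import Fermat.Agent.GAL.RED.Main

/-!
# S33 / Val / RedExt : extension of a reduction datum to a split valuation subring; conjugates.

* `extRed R W hW hs : RedData K E k Fb` : `W` a valuation subring of `E` with `W ∩ F = R.O`, totally split (`IsSplit K F W`): the residue
  field of `W` is the residue field `Fb` of `R`.
* `cjRed R' g` : the conjugate of a reduction datum of `E` by `g : E ≃ₐ[F] E` : `red_{g}(z) = red (g⁻¹ z)`.
-/

set_option autoImplicit false
set_option linter.unusedSectionVars false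

noncomputable section

namespace Fermat.Agent.S33.Val

open Fermat.Agent.GAL.RED

variable {K F E k Fb : Type*} [Field K] [Field F] [Field E] [Algebra K F] [Algebra K E] [Algebra F E]
  [IsScalarTower K F E] [Field k] [Field Fb] [Algebra k Fb]

section ext

variable (R : RedData K F k Fb) (W : ValuationSubring E) (hW : W.comap (algebraMap F E) = R.O)

include hW in
theorem RedExt_mem {x : F} (hx : x ∈ R.O) : algebraMap F E x ∈ W := by
  rw [← hW] at hx
  exact hx

/-- `O → W → κ(W)`. -/
def toRes : R.O →+* IsLocalRing.ResidueField W :=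
  (IsLocalRing.residue W).comp
    (((algebraMap F E).comp R.O.subtype).codRestrict W.toSubring (fun x => RedExt_mem R W hW x.2))

theorem toRes_apply (x : R.O) :
    toRes R W hW x = IsLocalRing.residue W ⟨algebraMap F E x, RedExt_mem R W hW x.2⟩ := rfl

/-- PROOF. `toRes x = 0` means `algebraMap x ∈ m_W` (`IsLocalRing.residue_eq_zero_iff`, `ValuationSubring.mem_nonunits_iff_exists_mem_maximalIdeal`),
so `x ∈ (W.comap _).nonunits = R.O.nonunits` (`S36.Val.mem_nonunits_comap_iff`, `hW`), so `R.O.valuation x < 1`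
(`ValuationSubring.valuation_lt_one_iff`/`mem_nonunits_iff`), so `R.red x = 0` (`RedData.red_eq_zero_iff`), `RedData.red_of_mem`. -/
theorem ker_toRes_le : RingHom.ker (toRes R W hW) ≤ RingHom.ker R.res := by
  intro x hx
  rw [RingHom.mem_ker] at hx ⊢
  rw [toRes_apply, IsLocalRing.residue_eq_zero_iff, ← ValuationSubring.coe_mem_nonunits_iff] at hx
  have h1 : (x : F) ∈ (W.comap (algebraMap F E)).nonunits :=
    (S36.Val.mem_nonunits_comap_iff (algebraMap F E) W (x : F)).2 hx
  rw [hW, ValuationSubring.mem_nonunits_iff, ← R.red_eq_zero_iff x.2, R.red_of_mem x.2] at h1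
  exact h1

variable [FiniteDimensional F E] [IsGalois F E] (hs : IsSplit K F W)

include hs in
/-- PROOF. `IsLocalRing.residue_surjective`: a class is the class of `z ∈ W`.  `hs.exists_approx z`: `y = z * (1 + t)`, `t ∈ m_W`; so
`algebraMap y ∈ W`, `y ∈ R.O` (`hW`), `algebraMap y - z = z * t ∈ m_W`: same residue. -/
theorem toRes_surjective : Function.Surjective (toRes R W hW) := by
  intro b
  obtain ⟨z, rfl⟩ := IsLocalRing.residue_surjective b
  obtain ⟨y, t, ht, hy⟩ := hs.exists_approx (z : E)
  have htW : t ∈ W := ValuationSubring.nonunits_subset ht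
  have hyW : algebraMap F E y ∈ W := by
    rw [hy]
    exact W.mul_mem _ _ z.2 (W.add_mem _ _ W.one_mem htW)
  have hyO : y ∈ R.O := by
    rw [← hW]
    exact hyW
  refine ⟨⟨y, hyO⟩, ?_⟩
  rw [toRes_apply, ← sub_eq_zero, ← map_sub, IsLocalRing.residue_eq_zero_iff,
    ← ValuationSubring.coe_mem_nonunits_iff]
  show algebraMap F E y - (z : E) ∈ W.nonunits
  have e : algebraMap F E y - (z : E) = z * t := by rw [hy]; ring
  rw [e, ValuationSubring.mem_nonunits_iff, map_mul]
  exact lt_of_le_of_lt (mul_le_of_le_one_left' ((W.valuation_le_one_iff _).2 z.2))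
    ((ValuationSubring.mem_nonunits_iff W).1 ht)

/-- the residue map `W → Fb`. -/
def resExt : W →+* Fb :=
  ((toRes R W hW).liftOfSurjective (toRes_surjective R W hW hs) ⟨R.res, ker_toRes_le R W hW⟩).comp
    (IsLocalRing.residue W)

theorem resExt_algebraMap (x : F) (hx : x ∈ R.O) :
    resExt R W hW hs ⟨algebraMap F E x, RedExt_mem R W hW hx⟩ = R.res ⟨x, hx⟩ :=
  RingHom.liftOfRightInverse_comp_apply (toRes R W hW) _
    (Function.rightInverse_surjInv (toRes_surjective R W hW hs)) ⟨R.res, ker_toRes_le R W hW⟩ ⟨x, hx⟩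

/-- **The extension of `R` to `W`.** -/
def extRed : RedData K E k Fb where
  A := R.A
  O := W
  resA := R.resA
  res := resExt R W hW hs
  resA_surjective := R.resA_surjective
  res_surjective := by
    intro b
    obtain ⟨x, rfl⟩ := R.res_surjective b
    exact ⟨⟨algebraMap F E x, RedExt_mem R W hW x.2⟩, resExt_algebraMap R W hW hs x x.2⟩
  algebraMap_mem := by
    intro a ha
    rw [IsScalarTower.algebraMap_apply K F E]
    exact RedExt_mem R W hW (R.algebraMap_mem a ha)
  res_algebraMap := by
    intro a ha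
    rw [← R.res_algebraMap a ha, ← resExt_algebraMap R W hW hs _ (R.algebraMap_mem a ha)]
    congr 1
    exact Subtype.ext (IsScalarTower.algebraMap_apply K F E a)

@[simp] theorem extRed_O : (extRed R W hW hs).O = W := rfl

@[simp] theorem extRed_A : (extRed R W hW hs).A = R.A := rfl

theorem extRed_redA (a : K) : (extRed R W hW hs).redA a = R.redA a := rfl

theorem extRed_algebraMap_mem_iff (y : F) : algebraMap F E y ∈ (extRed R W hW hs).O ↔ y ∈ R.O := by
  rw [← hW]
  rfl

theorem extRed_red_algebraMap (y : F) : (extRed R W hW hs).red (algebraMap F E y) = R.red y := by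
  by_cases hy : y ∈ R.O
  · rw [R.red_of_mem hy, (extRed R W hW hs).red_of_mem ((extRed_algebraMap_mem_iff R W hW hs y).2 hy)]
    exact resExt_algebraMap R W hW hs y hy
  · rw [R.red_of_not_mem hy,
      (extRed R W hW hs).red_of_not_mem (fun h => hy ((extRed_algebraMap_mem_iff R W hW hs y).1 h))]

end ext

section cj

/-- **The conjugate of a reduction datum.** -/
def cjRed (R' : RedData K E k Fb) (g : E ≃ₐ[F] E) : RedData K E k Fb where
  A := R'.A
  O := cj R'.O g
  resA := R'.resA
  res := R'.res.comp
    ((((g.symm : E ≃ₐ[F] E) : E →+* E).comp (cj R'.O g).subtype).codRestrict R'.O.toSubring (fun x => x.2))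
  resA_surjective := R'.resA_surjective
  res_surjective := by
    intro b
    obtain ⟨x, rfl⟩ := R'.res_surjective b
    refine ⟨⟨g x, ?_⟩, ?_⟩
    · rw [mem_cj, AlgEquiv.symm_apply_apply]; exact x.2
    · show R'.res ⟨g.symm (g x), _⟩ = R'.res x
      congr 1
      exact Subtype.ext (AlgEquiv.symm_apply_apply g _)
  algebraMap_mem := by
    intro a ha
    rw [mem_cj, IsScalarTower.algebraMap_apply K F E, AlgEquiv.commutes,
      ← IsScalarTower.algebraMap_apply K F E]
    exact R'.algebraMap_mem a ha
  res_algebraMap := by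
    intro a ha
    rw [← R'.res_algebraMap a ha]
    show R'.res ⟨g.symm (algebraMap K E a), _⟩ = _
    congr 1
    apply Subtype.ext
    show g.symm (algebraMap K E a) = algebraMap K E a
    rw [IsScalarTower.algebraMap_apply K F E, AlgEquiv.commutes]

theorem mem_cjRed_O (R' : RedData K E k Fb) (g : E ≃ₐ[F] E) (z : E) :
    z ∈ (cjRed R' g).O ↔ g.symm z ∈ R'.O := Iff.rfl

@[simp] theorem cjRed_A (R' : RedData K E k Fb) (g : E ≃ₐ[F] E) : (cjRed R' g).A = R'.A := rfl

theorem cjRed_redA (R' : RedData K E k Fb) (g : E ≃ₐ[F] E) (a : K) : (cjRed R' g).redA a = R'.redA a := rfl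

theorem cjRed_red (R' : RedData K E k Fb) (g : E ≃ₐ[F] E) (z : E) :
    (cjRed R' g).red z = R'.red (g.symm z) := by
  by_cases hz : g.symm z ∈ R'.O
  · rw [R'.red_of_mem hz, (cjRed R' g).red_of_mem ((mem_cjRed_O R' g z).2 hz)]
    rfl
  · rw [R'.red_of_not_mem hz, (cjRed R' g).red_of_not_mem (fun h => hz ((mem_cjRed_O R' g z).1 h))]

end cj

end Fermat.Agent.S33.Val
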